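import Fermat.Agent.Kummer.CaseII.Defs

/-!
# Kummer/CaseII: the ring of integers of the `p`-th cyclotomic field satisfies `Setup`.
-/

set_option autoImplicit false

namespace Fermat.Agent.Kummer.CaseII.CycloAux

/-- In a commutative ring generated over `ℤ` by an element `ζ` with `ζ ^ p = 1` (`p` prime),
every `p`-th power is congruent to a rational integer modulo `p`. -/
theorem pow_cong_of_adjoin_eq_top {R : Type*} [CommRing R] {p : ℕ} (hp : p.Prime) {ζ : R}
    (hζ : ζ ^ p = 1) (htop : Algebra.adjoin ℤ ({ζ} : Set R) = ⊤) (α : R) :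
    ∃ a : ℤ, (p : R) ∣ α ^ p - (a : R) := by
  have hα : α ∈ Algebra.adjoin ℤ ({ζ} : Set R) := htop ▸ Algebra.mem_top
  induction hα using Algebra.adjoin_induction with
  | mem x hx =>
    rw [Set.mem_singleton_iff] at hx
    subst hx
    exact ⟨1, by simp [hζ]⟩
  | algebraMap r =>
    exact ⟨r ^ p, by simp⟩
  | add x y _ _ hx hy =>
    obtain ⟨a, c, hc⟩ := hx
    obtain ⟨b, d, hd⟩ := hy
    obtain ⟨r, hr⟩ := exists_add_pow_prime_eq hp x y
    refine ⟨a + b, c + d + x * y * r, ?_⟩
    push_cast
    rw [hr]
    linear_combination hc + hd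
  | mul x y _ _ hx hy =>
    obtain ⟨a, c, hc⟩ := hx
    obtain ⟨b, d, hd⟩ := hy
    refine ⟨a * b, x ^ p * d + b * c, ?_⟩
    push_cast
    rw [mul_pow]
    linear_combination x ^ p * hd + (b : R) * hc

end Fermat.Agent.Kummer.CaseII.CycloAux

namespace Fermat.Agent.Kummer.CaseII

open NumberField

/-- The ring of integers of the `p`-th cyclotomic field (`p ≥ 3` prime, Kummer's lemma assumed)
with `ζ` the distinguished primitive root satisfies `Setup`. -/
theorem setup_ringOfIntegers {p : ℕ} [Fact p.Prime] (hp3 : 3 ≤ p) (K : Type) [Field K]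
    [NumberField K] [IsCyclotomicExtension {p} ℚ K] (hk : KummerProp p K) :
    Setup p (IsCyclotomicExtension.zeta_spec p ℚ K).toInteger := by
  have hp : p.Prime := Fact.out
  have hζ := IsCyclotomicExtension.zeta_spec p ℚ K
  refine
    { prime := hp
      three_le := hp3
      prim := hζ.toInteger_isPrimitiveRoot
      lam_prime := hζ.zeta_sub_one_prime'
      assoc := IsCyclotomicExtension.Rat.associated_zeta_sub_one_pow_prime p hζ
      card := ?_
      pow_cong := ?_
      kummer := hk }
  · rw [hζ.card_quotient_toInteger_sub_one,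
      hζ.norm_toInteger_sub_one_of_prime_ne_two' (by omega)]
    simp
  · intro α
    refine CycloAux.pow_cong_of_adjoin_eq_top hp hζ.toInteger_isPrimitiveRoot.pow_eq_one ?_ α
    have h := hζ.integralPowerBasis.adjoin_gen_eq_top
    rwa [hζ.integralPowerBasis_gen] at h

end Fermat.Agent.Kummer.CaseII
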