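import Fermat.Agent.Kummer.CaseII.Units

/-!
# Kummer/CaseII: the unit `η₁` in `ρ₁^p + η₁ ρ₂^p = η₂ λ^(p k) ρ₀^p` (`k ≥ 1`) is a `p`-th power
(this is where Kummer's lemma is used).
-/

set_option autoImplicit false

namespace Fermat.Agent.Kummer.CaseII

variable {p : ℕ} {R : Type*} [CommRing R] [IsDomain R] {ζ : R}

theorem exists_unit_pow_eq (S : Setup p ζ) {ρ₁ ρ₂ ρ₀ : R} {η₁ η₂ : Rˣ} {k : ℕ} (hk : 1 ≤ k)
    (h : ρ₁ ^ p + η₁ * ρ₂ ^ p = η₂ * (ζ - 1) ^ (p * k) * ρ₀ ^ p) (h2 : ¬ (ζ - 1) ∣ ρ₂) :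
    ∃ ε : Rˣ, η₁ = ε ^ p := by
  -- `p` divides `λ ^ (p * k)`
  have hpk : p - 1 ≤ p * k :=
    calc p - 1 ≤ p := Nat.sub_le p 1
      _ = p * 1 := (mul_one p).symm
      _ ≤ p * k := Nat.mul_le_mul_left p hk
  obtain ⟨t, ht⟩ := S.p_dvd_lam_pow hpk
  -- `p`-th powers are congruent to rational integers modulo `p`
  obtain ⟨a₁, s₁, hs₁⟩ := S.pow_cong ρ₁
  obtain ⟨a₂, s₂, hs₂⟩ := S.pow_cong ρ₂
  -- `a₂` is prime to `p`
  have hna : ¬ (p : ℤ) ∣ a₂ := by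
    intro hdvd
    have h3 : ζ - 1 ∣ (a₂ : R) := (S.lam_dvd_intCast_iff a₂).mpr hdvd
    have h4 : ζ - 1 ∣ ρ₂ ^ p - (a₂ : R) := S.lam_dvd_p.trans ⟨s₂, hs₂⟩
    have h5 : ζ - 1 ∣ ρ₂ ^ p := by
      have h6 := dvd_add h4 h3
      rwa [sub_add_cancel] at h6
    exact h2 (S.lam_prime.dvd_of_dvd_pow h5)
  have hp : Prime (p : ℤ) := Nat.prime_iff_prime_int.mp S.prime
  obtain ⟨c, b, hbc⟩ : IsCoprime (p : ℤ) a₂ := hp.coprime_iff_not_dvd.mpr hna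
  have hbcR : (c : R) * (p : R) + (b : R) * (a₂ : R) = 1 := by
    have h7 := congrArg (Int.cast : ℤ → R) hbc
    push_cast at h7
    exact h7
  -- hence `η₁` is congruent to a rational integer modulo `p`, and Kummer's lemma applies
  refine S.kummer η₁ ⟨-(a₁ * b), ?_⟩
  refine ⟨b * (η₂ * t * ρ₀ ^ p - s₁ - η₁ * s₂) + η₁ * c, ?_⟩
  push_cast
  linear_combination (b : R) * h - (b : R) * hs₁ - (b : R) * (η₁ : R) * hs₂
    + (b : R) * (η₂ : R) * ρ₀ ^ p * ht - (η₁ : R) * hbcR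

end Fermat.Agent.Kummer.CaseII
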