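import Fermat.Agent.Kummer.CaseII.Units

/-!
# Kummer/CaseII: the cofactors are pairwise coprime.
-/

set_option autoImplicit false

namespace Fermat.Agent.Kummer.CaseII

variable {p : ℕ} {R : Type*} [CommRing R] [IsDomain R] {ζ : R}

theorem cofactors_isCoprime (S : Setup p ζ) [IsPrincipalIdealRing R] {ω θ : R}
    (hcop : IsCoprime ω θ) {n : ℕ} {A : ℕ → R}
    (h0 : ω + θ = (ζ - 1) ^ n * A 0)
    (hA : ∀ a, 0 < a → a < p → ω + ζ ^ a * θ = (ζ - 1) * A a)
    (hnd : ∀ a, a < p → ¬ (ζ - 1) ∣ A a) {a b : ℕ} (ha : a < p) (hb : b < p) (hab : a ≠ b) :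
    IsCoprime (A a) (A b) := by
  -- every cofactor divides the corresponding linear factor
  have hdiv : ∀ c, c < p → A c ∣ ω + ζ ^ c * θ := by
    intro c hc
    rcases Nat.eq_zero_or_pos c with rfl | hc0
    · rw [pow_zero, one_mul, h0]
      exact Dvd.intro_left _ rfl
    · rw [hA c hc0 hc]
      exact Dvd.intro_left _ rfl
  -- `ζ ^ a - ζ ^ b` is associated to `λ`
  have hmod : ¬ a ≡ b [MOD p] := by
    intro h
    apply hab
    have h' : a % p = b % p := h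
    rwa [Nat.mod_eq_of_lt ha, Nat.mod_eq_of_lt hb] at h'
  have hassoc : Associated (ζ ^ a - ζ ^ b) (ζ - 1) := S.associated_pow_sub_pow hmod
  have hirr : Irreducible (ζ - 1) := S.lam_prime.irreducible
  refine isCoprime_of_dvd (A a) (A b) ?_ ?_
  · rintro ⟨h1, -⟩
    exact hnd a ha (h1 ▸ dvd_zero _)
  · intro z hz _ hza hzb
    have h1 : z ∣ ω + ζ ^ a * θ := hza.trans (hdiv a ha)
    have h2 : z ∣ ω + ζ ^ b * θ := hzb.trans (hdiv b hb)
    obtain ⟨s, t, hst⟩ := hcop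
    have h3 : z ∣ ζ ^ a - ζ ^ b := by
      have e : ζ ^ a - ζ ^ b =
          (t - s * ζ ^ b) * (ω + ζ ^ a * θ) + (s * ζ ^ a - t) * (ω + ζ ^ b * θ) := by
        have e1 : (t - s * ζ ^ b) * (ω + ζ ^ a * θ) + (s * ζ ^ a - t) * (ω + ζ ^ b * θ)
            = (ζ ^ a - ζ ^ b) * (s * ω + t * θ) := by ring
        rw [e1, hst, mul_one]
      rw [e]
      exact dvd_add (Dvd.dvd.mul_left h1 _) (Dvd.dvd.mul_left h2 _)
    have h4 : z ∣ ζ - 1 := h3.trans hassoc.dvd
    obtain ⟨e, he⟩ := h4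
    rcases hirr.isUnit_or_isUnit he with hu | hu
    · exact hz hu
    · apply hnd a ha
      have h5 : ζ - 1 ∣ z := by
        obtain ⟨u, rfl⟩ := hu
        refine ⟨(↑u⁻¹ : R), ?_⟩
        rw [he, mul_assoc, Units.mul_inv, mul_one]
      exact h5.trans hza

end Fermat.Agent.Kummer.CaseII
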