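import Fermat.Agent.Kummer.CaseII.Defs

/-!
# Kummer/CaseII: pairwise coprime elements of a principal ideal domain whose product is a unit
times an `n`-th power are themselves units times `n`-th powers.
-/

set_option autoImplicit false

namespace Fermat.Agent.Kummer.CaseII

variable {R : Type*} [CommRing R] [IsDomain R]

theorem exists_unit_mul_pow [IsPrincipalIdealRing R] {n : ℕ} {A : ℕ → R} {s : Finset ℕ}
    (hcop : ∀ a ∈ s, ∀ b ∈ s, a ≠ b → IsCoprime (A a) (A b)) {η : Rˣ} {ξ : R}
    (hprod : ∏ a ∈ s, A a = η * ξ ^ n) :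
    ∀ a ∈ s, ∃ (u : Rˣ) (ρ : R), A a = u * ρ ^ n := by
  intro a ha
  have hsplit : A a * ∏ b ∈ s.erase a, A b = ∏ b ∈ s, A b := Finset.mul_prod_erase s A ha
  have hcop' : IsCoprime (A a) (∏ b ∈ s.erase a, A b) := by
    refine IsCoprime.prod_right fun b hb => ?_
    exact hcop a ha b (Finset.mem_of_mem_erase hb) (Finset.ne_of_mem_erase hb).symm
  have hassoc : Associated (ξ ^ n) (A a * ∏ b ∈ s.erase a, A b) := by
    rw [hsplit, hprod]
    exact ⟨η, mul_comm _ _⟩
  obtain ⟨d, u, hu⟩ := exists_associated_pow_of_associated_pow_mul hcop' hassoc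
  exact ⟨u, d, by rw [← hu, mul_comm]⟩

end Fermat.Agent.Kummer.CaseII
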