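import Fermat.Agent.Kummer.CaseII.Valuation
import Fermat.Agent.Kummer.CaseII.Coprime
import Fermat.Agent.Kummer.CaseII.Powers

/-!
# Kummer/CaseII: from a normalised solution at level `m` to an equation
`ρ₁^p + η₁ ρ₂^p = η₂ λ^(p(m-1)) ρ₀^p`.
-/

set_option autoImplicit false

namespace Fermat.Agent.Kummer.CaseII

variable {p : ℕ} {R : Type*} [CommRing R] [IsDomain R] {ζ : R}

namespace NewEqAux

/-- The linear relation between the three factors `ω + θ`, `ω + ζ θ`, `ω + ζ^(p-1) θ`, after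
division by `λ`. -/
theorem key_relation (S : Setup p ζ) {ω θ : R} {N : ℕ} {A : ℕ → R}
    (h0 : ω + θ = (ζ - 1) ^ (N + 1) * A 0)
    (hA : ∀ a, 0 < a → a < p → ω + ζ ^ a * θ = (ζ - 1) * A a) :
    ζ * A (p - 1) + A 1 = (1 + ζ) * (ζ - 1) ^ N * A 0 := by
  have hp3 : 3 ≤ p := S.three_le
  have hζ : ζ * ζ ^ (p - 1) = 1 := by
    rw [← pow_succ', Nat.sub_add_cancel (by omega)]
    exact S.zeta_pow
  have hA1 := hA 1 (by omega) (by omega)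
  have hA2 := hA (p - 1) (by omega) (by omega)
  apply mul_left_cancel₀ S.lam_ne_zero
  rw [pow_succ] at h0
  linear_combination (-ζ) * hA2 - hA1 + (1 + ζ) * h0 + θ * hζ

omit [IsDomain R] in
/-- If `λ` does not divide `u * ρ ^ n` (with `n ≠ 0`), it does not divide `ρ`. -/
theorem not_dvd_of_eq_unit_mul_pow {l a ρ : R} {u : Rˣ} {n : ℕ} (hn : n ≠ 0)
    (ha : a = u * ρ ^ n) (hnd : ¬ l ∣ a) : ¬ l ∣ ρ := by
  intro hd
  apply hnd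
  rw [ha]
  exact Dvd.dvd.mul_left (dvd_pow hd hn) _

end NewEqAux

theorem exists_new_equation (S : Setup p ζ) [IsPrincipalIdealRing R] {m : ℕ} {ω θ ξ : R}
    {η : Rˣ} (h : NSol p ζ m ω θ ξ η) :
    2 ≤ m ∧ ∃ (ρ₁ ρ₂ ρ₀ : R) (η₁ η₂ : Rˣ),
      ρ₁ ^ p + η₁ * ρ₂ ^ p = η₂ * (ζ - 1) ^ (p * (m - 1)) * ρ₀ ^ p ∧
      ¬ (ζ - 1) ∣ ρ₁ ∧ ¬ (ζ - 1) ∣ ρ₂ ∧ ¬ (ζ - 1) ∣ ρ₀ ∧ IsCoprime ρ₁ ρ₂ := by
  obtain ⟨hm, A, h0, hA, hnd, hprod⟩ := exists_cofactors S h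
  refine ⟨hm, ?_⟩
  have hp3 : 3 ≤ p := S.three_le
  have hp0 : p ≠ 0 := by omega
  have hmem0 : 0 ∈ Finset.range p := Finset.mem_range.mpr (by omega)
  have hmem1 : 1 ∈ Finset.range p := Finset.mem_range.mpr (by omega)
  have hmem2 : p - 1 ∈ Finset.range p := Finset.mem_range.mpr (by omega)
  have hcop : ∀ a ∈ Finset.range p, ∀ b ∈ Finset.range p, a ≠ b → IsCoprime (A a) (A b) :=
    fun a ha b hb hab =>
      cofactors_isCoprime S h.coprime h0 hA hnd (Finset.mem_range.mp ha)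
        (Finset.mem_range.mp hb) hab
  have hpow := exists_unit_mul_pow hcop hprod
  obtain ⟨u₀, ρ₀, hρ₀⟩ := hpow 0 hmem0
  obtain ⟨u₁, ρ₁, hρ₁⟩ := hpow 1 hmem1
  obtain ⟨u₂, ρ₂, hρ₂⟩ := hpow (p - 1) hmem2
  have key := NewEqAux.key_relation S h0 hA
  have hcop12 : IsCoprime (A 1) (A (p - 1)) := hcop 1 hmem1 (p - 1) hmem2 (by omega)
  refine ⟨ρ₁, ρ₂, ρ₀, S.isUnit_zeta.unit * u₂ * u₁⁻¹, S.isUnit_one_add_zeta.unit * u₀ * u₁⁻¹,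
    ?_, ?_, ?_, ?_, ?_⟩
  · have hu : (↑u₁⁻¹ : R) * ↑u₁ = 1 := Units.inv_mul u₁
    rw [hρ₀, hρ₁, hρ₂] at key
    simp only [Units.val_mul, IsUnit.unit_spec]
    linear_combination (↑u₁⁻¹ : R) * key - ρ₁ ^ p * hu
  · exact NewEqAux.not_dvd_of_eq_unit_mul_pow hp0 hρ₁ (hnd 1 (by omega))
  · exact NewEqAux.not_dvd_of_eq_unit_mul_pow hp0 hρ₂ (hnd (p - 1) (by omega))
  · exact NewEqAux.not_dvd_of_eq_unit_mul_pow hp0 hρ₀ (hnd 0 (by omega))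
  · rw [hρ₁, hρ₂] at hcop12
    exact (IsCoprime.pow_iff (Nat.pos_of_ne_zero hp0) (Nat.pos_of_ne_zero hp0)).mp
      hcop12.of_mul_left_right.of_mul_right_right

end Fermat.Agent.Kummer.CaseII
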