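import Fermat.Agent.Kummer.CaseII.Normalize
import Fermat.Agent.Kummer.CaseII.NewEq
import Fermat.Agent.Kummer.CaseII.KummerStep

/-!
# Kummer/CaseII: the descent step and the nonexistence of solutions of the generalised equation.
-/

set_option autoImplicit false

namespace Fermat.Agent.Kummer.CaseII

variable {p : ℕ} {R : Type*} [CommRing R] [IsDomain R] {ζ : R}

/-- **Kummer's descent**: a solution at level `m ≥ 1` has `m ≥ 2` and yields a solution at
level `m - 1`. -/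
theorem descent (S : Setup p ζ) [IsPrincipalIdealRing R] {m : ℕ} (hm : 1 ≤ m)
    (h : Sol p ζ m) : 2 ≤ m ∧ Sol p ζ (m - 1) := by
  obtain ⟨ω, θ, ξ, η, hN⟩ := exists_nsol S hm h
  obtain ⟨hm2, ρ₁, ρ₂, ρ₀, η₁, η₂, heq, h1, h2, h0, hcop⟩ := exists_new_equation S hN
  refine ⟨hm2, ?_⟩
  obtain ⟨ε, hε⟩ := exists_unit_pow_eq S (k := m - 1) (by omega) heq h2
  refine ⟨ρ₁, ε * ρ₂, ρ₀, η₂, ?_, h1, ?_, h0, ?_⟩
  · rw [← heq, hε, mul_pow, Units.val_pow_eq_pow_val]
  · intro hdvd
    exact h2 ((S.lam_prime.dvd_or_dvd hdvd).resolve_left (S.not_lam_dvd_unit ε))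
  · exact (isCoprime_mul_unit_left_right ε.isUnit ρ₁ ρ₂).mpr hcop

theorem not_sol (S : Setup p ζ) [IsPrincipalIdealRing R] : ∀ m, 1 ≤ m → ¬ Sol p ζ m := by
  intro m
  induction m with
  | zero => intro h; omega
  | succ k ih =>
    intro _ hsol
    obtain ⟨h2, hsol'⟩ := descent S (by omega) hsol
    exact ih (by omega) (by simpa using hsol')

end Fermat.Agent.Kummer.CaseII
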