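import Fermat.Agent.Kummer.CaseII.Units

/-!
# Kummer/CaseII: a second-case solution of Fermat's equation over `ℤ` gives a solution of the
generalised equation.
-/

set_option autoImplicit false

namespace Fermat.Agent.Kummer.CaseII

variable {p : ℕ} {R : Type*} [CommRing R] [IsDomain R] {ζ : R}

namespace StartAux

/-- If a prime `q` divides `x` and `z`, and `x ^ n + y ^ n + z ^ n = 0` with `n ≠ 0`, then
`x` and `y` are not coprime. -/
theorem not_dvd_of_isCoprime {q x y z : ℤ} {n : ℕ} (hq : Prime q) (hn : n ≠ 0)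
    (hxy : IsCoprime x y) (h : x ^ n + y ^ n + z ^ n = 0) (hqz : q ∣ z) : ¬ q ∣ x := by
  intro hx
  have hy : q ∣ y ^ n := by
    have e : y ^ n = -(x ^ n) - z ^ n := by linarith
    rw [e]
    exact dvd_sub ((dvd_neg).mpr (dvd_pow hx hn)) (dvd_pow hqz hn)
  exact hq.not_isUnit (hxy.isUnit_of_dvd' hx (hq.dvd_of_dvd_pow hy))

end StartAux

theorem sol_of_fermat (S : Setup p ζ) {x y z : ℤ} (hxy : IsCoprime x y)
    (h : x ^ p + y ^ p + z ^ p = 0) (hz : z ≠ 0) (hpz : (p : ℤ) ∣ z) :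
    ∃ m, 1 ≤ m ∧ Sol p ζ m := by
  have hp : p.Prime := S.prime
  have hp3 : 3 ≤ p := S.three_le
  have hpint : Prime (p : ℤ) := Nat.prime_iff_prime_int.mp hp
  -- write `z = p ^ k * z₀` with `p ∤ z₀`
  have hfin : FiniteMultiplicity (p : ℤ) z :=
    Int.finiteMultiplicity_iff.mpr ⟨by simpa using hp.ne_one, hz⟩
  obtain ⟨z₀, hz₀, hpz₀⟩ := hfin.exists_eq_pow_mul_and_not_dvd
  generalize multiplicity (p : ℤ) z = k at hz₀
  have hk1 : 1 ≤ k := by
    rcases Nat.eq_zero_or_pos k with h0 | h0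
    · exfalso
      rw [h0, pow_zero, one_mul] at hz₀
      exact hpz₀ (hz₀ ▸ hpz)
    · exact h0
  -- `p` divides neither `x` nor `y`
  have hpx : ¬ (p : ℤ) ∣ x := StartAux.not_dvd_of_isCoprime hpint hp.ne_zero hxy h hpz
  have hpy : ¬ (p : ℤ) ∣ y :=
    StartAux.not_dvd_of_isCoprime hpint hp.ne_zero hxy.symm (by linarith) hpz
  -- the unit comparing `λ ^ (p - 1)` and `p`
  obtain ⟨u, hu⟩ := S.assoc
  refine ⟨(p - 1) * k, ?_, (x : R), (y : R), (z₀ : R), (-1 : Rˣ) ^ p * u ^ (k * p),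
    ?_, ?_, ?_, ?_, ?_⟩
  · exact Nat.one_le_iff_ne_zero.mpr (Nat.mul_ne_zero (by omega) (by omega))
  · have h1 : x ^ p + y ^ p = (-1) ^ p * ((p : ℤ) ^ k) ^ p * z₀ ^ p := by
      have e : x ^ p + y ^ p = -z ^ p := by linarith
      rw [e, hz₀, mul_pow, S.odd.neg_one_pow]
      ring
    have h2 := congrArg (Int.cast : ℤ → R) h1
    push_cast at h2
    rw [h2, ← hu]
    push_cast
    ring
  · rwa [S.lam_dvd_intCast_iff]
  · rwa [S.lam_dvd_intCast_iff]
  · rwa [S.lam_dvd_intCast_iff]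
  · exact hxy.intCast

end Fermat.Agent.Kummer.CaseII
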