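import Fermat.Agent.Kummer.Defs

/-!
# Kummer project, component II (second case): shared definitions (owner: helper1).
Statements are frozen.

Abstract setting: a commutative ring `R` (in the application: the ring of integers of the
`p`-th cyclotomic field, a principal ideal domain) with an element `ζ` satisfying `Setup p ζ`.
We write `λ = ζ - 1`.
-/

set_option autoImplicit false

namespace Fermat.Agent.Kummer.CaseII

/-- The hypotheses on the ring `R` and the element `ζ` under which Kummer's descent for the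
second case works (`R` will moreover be a principal ideal domain). -/
structure Setup (p : ℕ) {R : Type*} [CommRing R] (ζ : R) : Prop where
  prime : p.Prime
  three_le : 3 ≤ p
  prim : IsPrimitiveRoot ζ p
  lam_prime : Prime (ζ - 1)
  assoc : Associated ((ζ - 1) ^ (p - 1)) (p : R)
  card : Nat.card (R ⧸ Ideal.span {ζ - 1}) = p
  pow_cong : ∀ α : R, ∃ a : ℤ, (p : R) ∣ α ^ p - (a : R)
  kummer : ∀ u : Rˣ, (∃ a : ℤ, (p : R) ∣ (u : R) - (a : R)) → ∃ v : Rˣ, u = v ^ p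

/-- A solution of the generalised Fermat equation `ω^p + θ^p = η λ^(p m) ξ^p` with `η` a unit,
`ω, θ, ξ` prime to `λ` and `ω, θ` coprime. -/
def Sol (p : ℕ) {R : Type*} [CommRing R] (ζ : R) (m : ℕ) : Prop :=
  ∃ (ω θ ξ : R) (η : Rˣ), ω ^ p + θ ^ p = η * (ζ - 1) ^ (p * m) * ξ ^ p ∧
    ¬ (ζ - 1) ∣ ω ∧ ¬ (ζ - 1) ∣ θ ∧ ¬ (ζ - 1) ∣ ξ ∧ IsCoprime ω θ

/-- A normalised solution: moreover `λ^2 ∣ ω + θ`, while the other factors `ω + ζ^a θ`
(`0 < a < p`) are divisible by `λ` exactly once. -/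
structure NSol (p : ℕ) {R : Type*} [CommRing R] (ζ : R) (m : ℕ) (ω θ ξ : R) (η : Rˣ) : Prop where
  eq : ω ^ p + θ ^ p = η * (ζ - 1) ^ (p * m) * ξ ^ p
  ndvd_om : ¬ (ζ - 1) ∣ ω
  ndvd_th : ¬ (ζ - 1) ∣ θ
  ndvd_xi : ¬ (ζ - 1) ∣ ξ
  coprime : IsCoprime ω θ
  sq_dvd : (ζ - 1) ^ 2 ∣ ω + θ
  dvd : ∀ a, 0 < a → a < p → (ζ - 1) ∣ ω + ζ ^ a * θ
  not_sq_dvd : ∀ a, 0 < a → a < p → ¬ (ζ - 1) ^ 2 ∣ ω + ζ ^ a * θ

end Fermat.Agent.Kummer.CaseII
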