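import Fermat.Agent.Kummer.CaseII.Pigeon

/-!
# Kummer/CaseII: every solution can be normalised.
-/

set_option autoImplicit false

namespace Fermat.Agent.Kummer.CaseII

variable {p : ℕ} {R : Type*} [CommRing R] [IsDomain R] {ζ : R}

namespace NormalizeAux

omit [IsDomain R] in
/-- `ζ - 1` divides `ζ ^ a - ζ ^ b` for all exponents. -/
theorem lam_dvd_pow_sub_pow (ζ : R) (a b : ℕ) : (ζ - 1) ∣ ζ ^ a - ζ ^ b := by
  have h : ζ ^ a - ζ ^ b = (ζ ^ a - 1) - (ζ ^ b - 1) := by ring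
  rw [h]
  exact dvd_sub (sub_one_dvd_pow_sub_one ζ a) (sub_one_dvd_pow_sub_one ζ b)

/-- If `(a + a₀) % p = a₀` with `a₀ < p` and `0 < a < p`, we have a contradiction. -/
theorem add_mod_ne {p a a₀ : ℕ} (ha0 : 0 < a) (hap : a < p) (ha₀ : a₀ < p) :
    (a + a₀) % p ≠ a₀ := by
  intro hmod
  have h1 : a + a₀ ≡ 0 + a₀ [MOD p] := by
    rw [zero_add]
    unfold Nat.ModEq
    rw [hmod, Nat.mod_eq_of_lt ha₀]
  have h2 : a ≡ 0 [MOD p] := Nat.ModEq.add_right_cancel' a₀ h1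
  have h3 : p ∣ a := Nat.modEq_zero_iff_dvd.mp h2
  exact absurd (Nat.le_of_dvd ha0 h3) (not_le.mpr hap)

end NormalizeAux

/-- All factors `ω + ζ^a θ` are divisible by `λ` (if `m ≥ 1`). -/
theorem lam_dvd_factor (S : Setup p ζ) {m : ℕ} (hm : 1 ≤ m) {ω θ ξ : R} {η : Rˣ}
    (h : ω ^ p + θ ^ p = η * (ζ - 1) ^ (p * m) * ξ ^ p) (a : ℕ) :
    (ζ - 1) ∣ ω + ζ ^ a * θ := by
  have hp : 0 < p := S.prime.pos
  have hpm : p * m ≠ 0 := Nat.mul_ne_zero hp.ne' (Nat.one_le_iff_ne_zero.mp hm)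
  have h1 : (ζ - 1) ∣ ∏ b ∈ Finset.range p, (ω + ζ ^ b * θ) := by
    rw [← S.pow_add_pow_eq_prod, h]
    exact Dvd.dvd.mul_right (Dvd.dvd.mul_left (dvd_pow_self _ hpm) _) _
  obtain ⟨b, -, hb⟩ := S.lam_prime.exists_mem_finset_dvd h1
  have h2 : (ζ - 1) ∣ (ζ ^ a - ζ ^ b) * θ :=
    Dvd.dvd.mul_right (NormalizeAux.lam_dvd_pow_sub_pow ζ a b) θ
  have h4 : ω + ζ ^ a * θ = (ω + ζ ^ b * θ) + (ζ ^ a - ζ ^ b) * θ := by ring
  rw [h4]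
  exact dvd_add hb h2

theorem exists_nsol (S : Setup p ζ) {m : ℕ} (hm : 1 ≤ m) (h : Sol p ζ m) :
    ∃ (ω θ ξ : R) (η : Rˣ), NSol p ζ m ω θ ξ η := by
  obtain ⟨ω, θ, ξ, η, heq, hω, hθ, hξ, hcop⟩ := h
  have hdiv : ∀ a, (ζ - 1) ∣ ω + ζ ^ a * θ := fun a => lam_dvd_factor S hm heq a
  obtain ⟨a₀, ha₀, hsq, hnsq⟩ := exists_unique_lam_sq_dvd S hθ hdiv
  have hu : IsUnit (ζ ^ a₀) := S.isUnit_zeta.pow a₀
  have hpow : (ζ ^ a₀ * θ) ^ p = θ ^ p := by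
    rw [mul_pow, ← pow_mul, mul_comm a₀ p, pow_mul, S.zeta_pow, one_pow, one_mul]
  have hkey : ∀ a, ω + ζ ^ a * (ζ ^ a₀ * θ) = ω + ζ ^ ((a + a₀) % p) * θ := by
    intro a
    rw [← mul_assoc, ← pow_add, pow_eq_pow_mod (a + a₀) S.zeta_pow]
  refine ⟨ω, ζ ^ a₀ * θ, ξ, η, ?_⟩
  refine
    { eq := ?_
      ndvd_om := hω
      ndvd_th := ?_
      ndvd_xi := hξ
      coprime := ?_
      sq_dvd := ?_
      dvd := ?_
      not_sq_dvd := ?_ }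
  · rw [hpow]
    exact heq
  · intro hd
    exact hθ ((IsUnit.dvd_mul_left hu).mp hd)
  · exact (isCoprime_mul_unit_left_right hu ω θ).mpr hcop
  · exact hsq
  · intro a _ _
    rw [hkey]
    exact hdiv _
  · intro a ha0 hap
    rw [hkey]
    exact hnsq _ (Nat.mod_lt _ S.prime.pos) (NormalizeAux.add_mod_ne ha0 hap ha₀)

end Fermat.Agent.Kummer.CaseII
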