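import Fermat.Agent.Kummer.CaseII.Units

/-!
# Kummer/CaseII: exactly one of the factors `ω + ζ^a θ` is divisible by `λ^2`.
-/

set_option autoImplicit false

namespace Fermat.Agent.Kummer.CaseII

variable {p : ℕ} {R : Type*} [CommRing R] [IsDomain R] {ζ : R}

theorem exists_unique_lam_sq_dvd (S : Setup p ζ) {ω θ : R} (hθ : ¬ (ζ - 1) ∣ θ)
    (hdiv : ∀ a, (ζ - 1) ∣ ω + ζ ^ a * θ) :
    ∃ a₀, a₀ < p ∧ (ζ - 1) ^ 2 ∣ ω + ζ ^ a₀ * θ ∧
      ∀ a, a < p → a ≠ a₀ → ¬ (ζ - 1) ^ 2 ∣ ω + ζ ^ a * θ := by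
  classical
  choose q hq using hdiv
  have hp0 : p ≠ 0 := S.prime.ne_zero
  have hlam0 : ζ - 1 ≠ 0 := S.lam_ne_zero
  -- the quotients `q a` are pairwise incongruent modulo `ζ - 1`
  have key : ∀ a b, a < p → b < p → a ≠ b → ¬ (ζ - 1) ∣ q a - q b := by
    intro a b ha hb hab hdvd
    have hmod : ¬ a ≡ b [MOD p] := by
      intro h
      apply hab
      have h' : a % p = b % p := h
      rwa [Nat.mod_eq_of_lt ha, Nat.mod_eq_of_lt hb] at h'
    obtain ⟨u, hu⟩ := (S.associated_pow_sub_pow hmod).symm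
    have h1 : (ζ - 1) * (q a - q b) = (ζ - 1) * ((u : R) * θ) := by
      rw [mul_sub, ← hq a, ← hq b, ← mul_assoc, hu]
      ring
    have h2 : q a - q b = (u : R) * θ := mul_left_cancel₀ hlam0 h1
    rw [h2] at hdvd
    rcases S.lam_prime.dvd_or_dvd hdvd with h | h
    · exact S.not_lam_dvd_unit u h
    · exact hθ h
  -- the residue classes of the `q a`, `a < p`, exhaust the quotient by `ζ - 1`
  have hfin : Finite (R ⧸ Ideal.span {ζ - 1}) :=
    Nat.finite_of_card_ne_zero (by rw [S.card]; exact hp0)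
  have hf_inj : Function.Injective
      (fun a : Fin p => Ideal.Quotient.mk (Ideal.span {ζ - 1}) (q a)) := by
    intro a b hab
    by_contra hne
    have hdvd : (ζ - 1) ∣ q (a : ℕ) - q (b : ℕ) := by
      rw [← Ideal.mem_span_singleton, ← Ideal.Quotient.eq]
      exact hab
    exact key a b a.2 b.2 (fun h => hne (Fin.ext h)) hdvd
  have hf_surj : Function.Surjective
      (fun a : Fin p => Ideal.Quotient.mk (Ideal.span {ζ - 1}) (q a)) := by
    have := Fintype.ofFinite (R ⧸ Ideal.span {ζ - 1})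
    have hcard : Fintype.card (Fin p) = Fintype.card (R ⧸ Ideal.span {ζ - 1}) := by
      rw [Fintype.card_fin, ← Nat.card_eq_fintype_card, S.card]
    exact ((Fintype.bijective_iff_injective_and_card _).mpr ⟨hf_inj, hcard⟩).2
  obtain ⟨a₀, ha₀⟩ := hf_surj 0
  have hq0 : (ζ - 1) ∣ q (a₀ : ℕ) := by
    rw [← Ideal.mem_span_singleton, ← Ideal.Quotient.eq_zero_iff_mem]
    exact ha₀
  refine ⟨a₀, a₀.2, ?_, ?_⟩
  · rw [hq, pow_two]
    exact mul_dvd_mul_left _ hq0
  · intro a ha hne hdvd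
    rw [hq, pow_two] at hdvd
    have hqa : (ζ - 1) ∣ q a := (mul_dvd_mul_iff_left hlam0).mp hdvd
    exact key a a₀ ha a₀.2 hne (dvd_sub hqa hq0)

end Fermat.Agent.Kummer.CaseII
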