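import Fermat.Agent.Kummer.CaseII.Defs

/-!
# Kummer/CaseII: elementary consequences of `Setup` (units, divisibility by `λ = ζ - 1`, the
factorisation of `ω^p + θ^p`).
-/

set_option autoImplicit false
set_option linter.unusedSectionVars false

namespace Fermat.Agent.Kummer.CaseII

variable {p : ℕ} {R : Type*} [CommRing R] [IsDomain R] {ζ : R}

theorem Setup.zeta_pow (S : Setup p ζ) : ζ ^ p = 1 :=
  S.prim.pow_eq_one

theorem Setup.isUnit_zeta (S : Setup p ζ) : IsUnit ζ :=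
  S.prim.isUnit S.prime.ne_zero

theorem Setup.lam_ne_zero (S : Setup p ζ) : ζ - 1 ≠ 0 :=
  S.lam_prime.ne_zero

theorem Setup.not_isUnit_lam (S : Setup p ζ) : ¬ IsUnit (ζ - 1) :=
  S.lam_prime.not_isUnit

theorem Setup.not_lam_dvd_unit (S : Setup p ζ) (u : Rˣ) : ¬ (ζ - 1) ∣ (u : R) :=
  fun h => S.not_isUnit_lam (isUnit_of_dvd_unit h u.isUnit)

theorem Setup.odd (S : Setup p ζ) : Odd p := by
  have h3 := S.three_le
  exact S.prime.odd_of_ne_two (by omega)

/-- `ζ^a - ζ^b` is associated to `λ` when `a ≢ b mod p`. -/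
theorem Setup.associated_pow_sub_pow (S : Setup p ζ) {a b : ℕ} (hab : ¬ a ≡ b [MOD p]) :
    Associated (ζ ^ a - ζ ^ b) (ζ - 1) := by
  have key : ∀ {a b : ℕ}, b ≤ a → ¬ a ≡ b [MOD p] → Associated (ζ ^ a - ζ ^ b) (ζ - 1) := by
    intro a b hba hab
    have hnd : ¬ p ∣ a - b := fun h => hab ((Nat.modEq_iff_dvd' hba).mpr h).symm
    have hcop : (a - b).Coprime p :=
      Nat.Coprime.symm ((Nat.Prime.coprime_iff_not_dvd S.prime).mpr hnd)
    have h1 : Associated (ζ - 1) (ζ ^ (a - b) - 1) :=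
      S.prim.associated_sub_one_pow_sub_one_of_coprime hcop
    have h2 : ζ ^ a - ζ ^ b = ζ ^ b * (ζ ^ (a - b) - 1) := by
      rw [mul_sub, mul_one, ← pow_add, Nat.add_sub_cancel' hba]
    rw [h2]
    have hu : IsUnit (ζ ^ b) := (S.prim.isUnit S.prime.ne_zero).pow b
    exact (associated_isUnit_mul_left_iff hu).mpr h1.symm
  rcases le_total b a with h | h
  · exact key h hab
  · have h1 := key h (fun h' => hab h'.symm)
    have h3 : ζ ^ a - ζ ^ b = -(ζ ^ b - ζ ^ a) := by ring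
    rw [h3]
    exact h1.neg_left

theorem Setup.isUnit_one_add_zeta (S : Setup p ζ) : IsUnit (1 + ζ) := by
  have h3 := S.three_le
  have hcop : Nat.Coprime 2 p := (Nat.coprime_primes Nat.prime_two S.prime).mpr (by omega)
  have h := S.prim.geom_sum_isUnit (by omega) hcop
  simpa [Finset.sum_range_succ] using h

theorem Setup.lam_dvd_p (S : Setup p ζ) : ζ - 1 ∣ (p : R) := by
  have h3 := S.three_le
  exact (dvd_pow_self (ζ - 1) (by omega)).trans S.assoc.dvd

theorem Setup.p_dvd_lam_pow (S : Setup p ζ) {n : ℕ} (hn : p - 1 ≤ n) :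
    (p : R) ∣ (ζ - 1) ^ n :=
  S.assoc.symm.dvd.trans (pow_dvd_pow _ hn)

theorem Setup.lam_dvd_intCast_iff (S : Setup p ζ) (n : ℤ) :
    ζ - 1 ∣ (n : R) ↔ (p : ℤ) ∣ n := by
  constructor
  · intro h
    by_contra hpn
    have hcop : IsCoprime (p : ℤ) n :=
      (Nat.prime_iff_prime_int.mp S.prime).coprime_iff_not_dvd.mpr hpn
    obtain ⟨a, b, hab⟩ := hcop
    have h1 : (a : R) * (p : R) + (b : R) * (n : R) = 1 := by
      have h2 := congrArg (Int.cast : ℤ → R) hab
      push_cast at h2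
      exact h2
    have h3 : ζ - 1 ∣ (a : R) * (p : R) + (b : R) * (n : R) :=
      dvd_add (Dvd.dvd.mul_left S.lam_dvd_p _) (Dvd.dvd.mul_left h _)
    rw [h1] at h3
    exact S.not_isUnit_lam (isUnit_of_dvd_one h3)
  · rintro ⟨k, rfl⟩
    have h1 : (((p : ℤ) * k : ℤ) : R) = (p : R) * (k : R) := by push_cast; ring
    rw [h1]
    exact Dvd.dvd.mul_right S.lam_dvd_p _

/-- `ω^p + θ^p = ∏_{a < p} (ω + ζ^a θ)`. -/
theorem Setup.pow_add_pow_eq_prod (S : Setup p ζ) (ω θ : R) :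
    ω ^ p + θ ^ p = ∏ a ∈ Finset.range p, (ω + ζ ^ a * θ) := by
  classical
  have hinj : Set.InjOn (fun a : ℕ => ζ ^ a) (Finset.range p : Set ℕ) := by
    intro i hi j hj hij
    exact S.prim.pow_inj (Finset.mem_range.mp hi) (Finset.mem_range.mp hj) hij
  have himg : Polynomial.nthRootsFinset p (1 : R) = (Finset.range p).image (fun a : ℕ => ζ ^ a) := by
    symm
    apply Finset.eq_of_subset_of_card_le
    · intro x hx
      obtain ⟨a, -, rfl⟩ := Finset.mem_image.mp hx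
      rw [Polynomial.mem_nthRootsFinset S.prime.pos, ← pow_mul, mul_comm, pow_mul,
        S.prim.pow_eq_one, one_pow]
    · rw [S.prim.card_nthRootsFinset, Finset.card_image_of_injOn hinj, Finset.card_range]
  rw [S.prim.pow_add_pow_eq_prod_add_mul ω θ S.odd, himg, Finset.prod_image hinj]

/-- If `λ` does not divide `α` then neither does it divide `α ^ n`. -/
theorem Setup.not_lam_dvd_pow (S : Setup p ζ) {α : R} (h : ¬ (ζ - 1) ∣ α) (n : ℕ) :
    ¬ (ζ - 1) ∣ α ^ n :=
  fun hdvd => h (S.lam_prime.dvd_of_dvd_pow hdvd)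

end Fermat.Agent.Kummer.CaseII
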