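import Fermat.Agent.Kummer.CaseII.Units

/-!
# Kummer/CaseII: the cofactors `A a` of the factors `ω + ζ^a θ` of a normalised solution.
-/

set_option autoImplicit false

namespace Fermat.Agent.Kummer.CaseII

variable {p : ℕ} {R : Type*} [CommRing R] [IsDomain R] {ζ : R}

theorem exists_cofactors (S : Setup p ζ) {m : ℕ} {ω θ ξ : R} {η : Rˣ}
    (h : NSol p ζ m ω θ ξ η) :
    2 ≤ m ∧ ∃ A : ℕ → R, ω + θ = (ζ - 1) ^ (p * (m - 1) + 1) * A 0 ∧
      (∀ a, 0 < a → a < p → ω + ζ ^ a * θ = (ζ - 1) * A a) ∧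
      (∀ a, a < p → ¬ (ζ - 1) ∣ A a) ∧
      ∏ a ∈ Finset.range p, A a = η * ξ ^ p := by
  classical
  have hlam : Prime (ζ - 1) := S.lam_prime
  have hlam0 : ζ - 1 ≠ 0 := hlam.ne_zero
  -- write `p = q + 1`
  obtain ⟨q, rfl⟩ : ∃ q, p = q + 1 := ⟨p - 1, by have := S.three_le; omega⟩
  -- the cofactors of the factors with `0 < a < p`
  have hC : ∀ a : ℕ, ∃ c : R, 0 < a → a < q + 1 → ω + ζ ^ a * θ = (ζ - 1) * c := by
    intro a
    by_cases ha : 0 < a ∧ a < q + 1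
    · obtain ⟨c, hc⟩ := h.dvd a ha.1 ha.2
      exact ⟨c, fun _ _ => hc⟩
    · exact ⟨0, fun h1 h2 => absurd ⟨h1, h2⟩ ha⟩
  choose C hC using hC
  have hCndvd : ∀ a, 0 < a → a < q + 1 → ¬ (ζ - 1) ∣ C a := by
    intro a ha1 ha2 hdvd
    apply h.not_sq_dvd a ha1 ha2
    rw [hC a ha1 ha2, pow_two]
    exact mul_dvd_mul_left _ hdvd
  -- the product of the cofactors with `0 < a < p` is prime to `λ`
  have hPndvd : ¬ (ζ - 1) ∣ ∏ k ∈ Finset.range q, C (k + 1) := by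
    rw [hlam.dvd_finsetProd_iff]
    rintro ⟨k, hk, hdvd⟩
    rw [Finset.mem_range] at hk
    exact hCndvd (k + 1) (Nat.succ_pos k) (by omega) hdvd
  -- `λ ∤ η ξ^p`
  have hex : ¬ (ζ - 1) ∣ (η : R) * ξ ^ (q + 1) := by
    intro hdvd
    rcases hlam.dvd_or_dvd hdvd with h1 | h1
    · exact hlam.not_isUnit (isUnit_of_dvd_unit h1 η.isUnit)
    · exact h.ndvd_xi (hlam.dvd_of_dvd_pow h1)
  -- the product formula
  have hprod : (ω + θ) * ((ζ - 1) ^ q * ∏ k ∈ Finset.range q, C (k + 1)) =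
      (ζ - 1) ^ ((q + 1) * m) * (η * ξ ^ (q + 1)) := by
    have h1 := S.pow_add_pow_eq_prod ω θ
    rw [h.eq, Finset.prod_range_succ'] at h1
    have h2 : ∏ k ∈ Finset.range q, (ω + ζ ^ (k + 1) * θ) =
        (ζ - 1) ^ q * ∏ k ∈ Finset.range q, C (k + 1) := by
      rw [Finset.prod_congr rfl (fun k hk => hC (k + 1) (Nat.succ_pos k)
        (by rw [Finset.mem_range] at hk; omega)), Finset.prod_mul_distrib, Finset.prod_const,
        Finset.card_range]
    rw [h2, pow_zero, one_mul] at h1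
    rw [mul_comm (ω + θ), ← h1]
    ring
  -- `2 ≤ m`
  have hm : 2 ≤ m := by
    by_contra hm
    have hm1 : (q + 1) * m ≤ q + 1 := by
      have hm' : m ≤ 1 := by omega
      calc (q + 1) * m ≤ (q + 1) * 1 := Nat.mul_le_mul_left _ hm'
        _ = q + 1 := mul_one _
    obtain ⟨c, hc⟩ := h.sq_dvd
    apply hex
    have h3 : (ζ - 1) ^ ((q + 1) * m) * (ζ - 1) ∣
        (ζ - 1) ^ ((q + 1) * m) * (η * ξ ^ (q + 1)) := by
      rw [← hprod, hc, ← pow_succ]
      have h4 : (ζ - 1) ^ 2 * c * ((ζ - 1) ^ q * ∏ k ∈ Finset.range q, C (k + 1)) =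
          (ζ - 1) ^ (q + 2) * (c * ∏ k ∈ Finset.range q, C (k + 1)) := by ring
      rw [h4]
      exact Dvd.dvd.mul_right (pow_dvd_pow _ (by omega)) _
    exact (mul_dvd_mul_iff_left (pow_ne_zero _ hlam0)).mp h3
  have hexp : (q + 1) * m = q + ((q + 1) * (m - 1) + 1) := by
    obtain ⟨m', rfl⟩ : ∃ m', m = m' + 1 := ⟨m - 1, by omega⟩
    simp only [Nat.add_sub_cancel]
    ring
  have hprod2 : (ω + θ) * ∏ k ∈ Finset.range q, C (k + 1) =
      (ζ - 1) ^ ((q + 1) * (m - 1) + 1) * (η * ξ ^ (q + 1)) := by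
    apply mul_left_cancel₀ (pow_ne_zero q hlam0)
    rw [hexp, pow_add] at hprod
    linear_combination hprod
  have hdvd : (ζ - 1) ^ ((q + 1) * (m - 1) + 1) ∣ ω + θ :=
    hlam.pow_dvd_of_dvd_mul_right _ hPndvd ⟨_, hprod2⟩
  obtain ⟨A₀, hA₀⟩ := hdvd
  have hprod3 : A₀ * ∏ k ∈ Finset.range q, C (k + 1) = η * ξ ^ (q + 1) := by
    apply mul_left_cancel₀ (pow_ne_zero ((q + 1) * (m - 1) + 1) hlam0)
    rw [← hprod2, hA₀]
    ring
  have hA₀ndvd : ¬ (ζ - 1) ∣ A₀ := by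
    intro hd
    apply hex
    rw [← hprod3]
    exact Dvd.dvd.mul_right hd _
  refine ⟨hm, fun a => if a = 0 then A₀ else C a, ?_, ?_, ?_, ?_⟩
  · simpa using hA₀
  · intro a ha1 ha2
    have ha0 : a ≠ 0 := by omega
    simpa only [if_neg ha0] using hC a ha1 ha2
  · intro a ha
    by_cases ha0 : a = 0
    · simpa only [if_pos ha0] using hA₀ndvd
    · simpa only [if_neg ha0] using hCndvd a (by omega) ha
  · rw [Finset.prod_range_succ']
    simp only [Nat.succ_ne_zero, if_false, if_true]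
    rw [← hprod3, mul_comm]

end Fermat.Agent.Kummer.CaseII
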